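import Fermat.Agent.JGI.Main
import Fermat.Agent.JPC.LDof

/-!
# The line data of a matrix point is a line bundle (S25, G-INV)
-/

set_option autoImplicit false

universe u

open TensorProduct Polynomial

namespace Fermat.Agent.JGI

open Fermat.Agent.JPC

section Laurent

variable {B : Type u} [CommRing B]

theorem coeff_toLaurent_nat (f : B[X]) (n : ℕ) : (toLaurent f).coeff (n : ℤ) = f.coeff n := by
  rw [LaurentPolynomial.coeff_toLaurent]
  exact Finsupp.mapDomain_apply Nat.castEmbedding.injective _ n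

theorem coeff_toLaurent_neg (f : B[X]) {n : ℤ} (hn : n < 0) : (toLaurent f).coeff n = 0 := by
  rw [LaurentPolynomial.coeff_toLaurent]
  refine Finsupp.mapDomain_of_notMem_range _ _ ?_
  rintro ⟨m, hm⟩
  have : (m : ℤ) = n := hm
  omega

theorem exists_toLaurent (v : LaurentPolynomial B) (hv : ∀ n : ℤ, n < 0 → v.coeff n = 0) :
    ∃ f : B[X], v = toLaurent f := by
  classical
  refine ⟨∑ n ∈ v.coeff.support, monomial n.toNat (v.coeff n), ?_⟩
  apply LaurentPolynomial.ext
  intro n
  rcases lt_or_ge n 0 with hn | hn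
  · rw [hv n hn, coeff_toLaurent_neg _ hn]
  · lift n to ℕ using hn
    rw [coeff_toLaurent_nat, finsetSum_coeff]
    simp only [coeff_monomial]
    by_cases h : (n : ℤ) ∈ v.coeff.support
    · rw [Finset.sum_eq_single_of_mem (n : ℤ) h]
      · simp
      · intro m hm hmn
        rw [if_neg]
        intro h1
        have hm0 : 0 ≤ m := by
          by_contra h2
          exact (Finsupp.mem_support_iff.mp hm) (hv m (by omega))
        exact hmn (by omega)
    · rw [Finset.sum_eq_zero]
      · exact Finsupp.notMem_support_iff.mp h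
      · intro m hm
        rw [if_neg]
        intro h1
        have hm0 : 0 ≤ m := by
          by_contra h2
          exact (Finsupp.mem_support_iff.mp hm) (hv m (by omega))
        have h2 : m = (n : ℤ) := by omega
        exact h (h2 ▸ hm)

end Laurent

variable {k : Type u} [Field k] {X : TwoChart k}

/-- `t` as an element of `A0` -/
def t0 (X : TwoChart k) : X.A0 := ⟨X.t, X.t_mem⟩

/-- `t⁻¹` as an element of `A1` -/
def t1 (X : TwoChart k) : X.A1 := ⟨((X.t⁻¹ : X.Aˣ) : X.A), X.tinv_mem⟩

/-- the basis of `A0` -/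
def bb0 (X : TwoChart k) (i : Fin X.d) : X.A0 := ⟨X.b0 i, X.b0_mem i⟩

/-- the basis of `A1` -/
def bb1 (X : TwoChart k) (i : Fin X.d) : X.A1 := ⟨X.b1 i, X.b1_mem i⟩

theorem bb0_basis (X : TwoChart k) (a : X.A0) :
    ∃! f : Fin X.d → k[X], a = ∑ i, aeval (t0 X) (f i) * bb0 X i := by
  obtain ⟨f, hf, hu⟩ := X.b0_basis a a.2
  have h1 : ∀ f : Fin X.d → k[X], ((∑ i, aeval (t0 X) (f i) * bb0 X i : X.A0) : X.A) =
      ∑ i, aeval (X.t : X.A) (f i) * X.b0 i := by
    intro f
    rw [AddSubmonoidClass.coe_finsetSum]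
    refine Finset.sum_congr rfl fun i _ => ?_
    show X.A0.val (aeval (t0 X) (f i)) * X.b0 i = _
    rw [← Polynomial.aeval_algHom_apply]
    rfl
  refine ⟨f, Subtype.ext ?_, fun g hg => hu g ?_⟩
  · rw [h1]; exact hf
  · show (a : X.A) = _
    rw [← h1, ← hg]

theorem bb1_basis (X : TwoChart k) (a : X.A1) :
    ∃! f : Fin X.d → k[X], a = ∑ i, aeval (t1 X) (f i) * bb1 X i := by
  obtain ⟨f, hf, hu⟩ := X.b1_basis a a.2
  have h1 : ∀ f : Fin X.d → k[X], ((∑ i, aeval (t1 X) (f i) * bb1 X i : X.A1) : X.A) =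
      ∑ i, aeval ((X.t⁻¹ : X.Aˣ) : X.A) (f i) * X.b1 i := by
    intro f
    rw [AddSubmonoidClass.coe_finsetSum]
    refine Finset.sum_congr rfl fun i _ => ?_
    show X.A1.val (aeval (t1 X) (f i)) * X.b1 i = _
    rw [← Polynomial.aeval_algHom_apply]
    rfl
  refine ⟨f, Subtype.ext ?_, fun g hg => hu g ?_⟩
  · rw [h1]; exact hf
  · show (a : X.A) = _
    rw [← h1, ← hg]

variable {B : Type u} [CommRing B] [Algebra k B]

/-- **G-INV for line data.** -/
theorem isLine_of_existsUnique (L : PreLD X B) (e0 e1 : Fin X.d → L.M)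
    (h0 : ∀ i, e0 i ∈ L.M0) (h1 : ∀ i, e1 i ∈ L.M1)
    (he0 : ∀ m ∈ L.M0, ∃! f : Fin X.d → B[X],
      m = ∑ i, (aeval ((1 : B) ⊗ₜ[k] t0 X) (f i) : B ⊗[k] X.A0) • e0 i)
    (he1 : ∀ m ∈ L.M1, ∃! f : Fin X.d → B[X],
      m = ∑ i, (aeval ((1 : B) ⊗ₜ[k] t1 X) (f i) : B ⊗[k] X.A1) • e1 i) : L.IsLine where
  inv0 := by
    refine invertible_of_existsUnique X.d_pos (bb0_basis X) X.ded0
      (fun i => (⟨e0 i, h0 i⟩ : L.M0')) ?_
    intro x
    obtain ⟨f, hf, hu⟩ := he0 x x.2
    refine ⟨f, Subtype.ext ?_, fun g hg => hu g ?_⟩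
    · rw [AddSubmonoidClass.coe_finsetSum]
      exact hf
    · have h2 := congrArg Subtype.val hg
      rw [AddSubmonoidClass.coe_finsetSum] at h2
      exact h2
  inv1 := by
    refine invertible_of_existsUnique X.d_pos (bb1_basis X) X.ded1
      (fun i => (⟨e1 i, h1 i⟩ : L.M1')) ?_
    intro x
    obtain ⟨f, hf, hu⟩ := he1 x x.2
    refine ⟨f, Subtype.ext ?_, fun g hg => hu g ?_⟩
    · rw [AddSubmonoidClass.coe_finsetSum]
      exact hf
    · have h2 := congrArg Subtype.val hg
      rw [AddSubmonoidClass.coe_finsetSum] at h2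
      exact h2

section MPt

variable {ι : Idx X} (Φ : MPt X ι B)

/-- vectors as elements of the module of `Φ.toLD` -/
def vec (v : Fin X.d → LaurentPolynomial B) : Φ.toLD.M := v

theorem smul_vec (a : X.A) (v : Fin X.d → LaurentPolynomial B) :
    a • vec Φ v = vec Φ ((Φ.Φ a).mulVec v) := rfl

theorem smulB_vec (b : B) (v : Fin X.d → LaurentPolynomial B) :
    b • vec Φ v = vec Φ (b • v) := rfl

theorem aeval_smul0 (p : B[X]) (v : Fin X.d → LaurentPolynomial B) :
    (aeval ((1 : B) ⊗ₜ[k] t0 X) p : B ⊗[k] X.A0) • vec Φ v =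
      vec Φ (fun i => toLaurent p * v i) := by
  induction p using Polynomial.induction_on' with
  | add p q hp hq =>
    rw [map_add, add_smul, hp, hq]
    show (fun i => toLaurent p * v i) + (fun i => toLaurent q * v i) = _
    funext i
    show toLaurent p * v i + toLaurent q * v i = toLaurent (p + q) * v i
    rw [map_add, add_mul]
  | monomial m a =>
    have h1 : (aeval ((1 : B) ⊗ₜ[k] t0 X) (monomial m a) : B ⊗[k] X.A0) =
        a ⊗ₜ[k] (t0 X ^ m) := by
      rw [aeval_monomial, Algebra.TensorProduct.tmul_pow, one_pow]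
      show (a ⊗ₜ[k] (1 : X.A0)) * _ = _
      rw [Algebra.TensorProduct.tmul_mul_tmul, mul_one, one_mul]
    rw [h1, PreLD.tmul_smul0]
    have h2 : ((t0 X ^ m : X.A0) : X.A) = (X.t : X.A) ^ m := rfl
    rw [h2, smul_vec, smulB_vec, Φ.Φ_tpow]
    show (a • (Matrix.scalar (Fin X.d) (LaurentPolynomial.T (m : ℤ))).mulVec v) = _
    funext i
    rw [Pi.smul_apply, Matrix.scalar_apply, Matrix.mulVec_diagonal,
      ← Polynomial.C_mul_X_pow_eq_monomial, Polynomial.toLaurent_C_mul_X_pow,
      LaurentPolynomial.smul_eq_C_mul, ← mul_assoc]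
    rfl

theorem aeval_smul1 (p : B[X]) (v : Fin X.d → LaurentPolynomial B) :
    (aeval ((1 : B) ⊗ₜ[k] t1 X) p : B ⊗[k] X.A1) • vec Φ v =
      vec Φ (fun i => LaurentPolynomial.invert (toLaurent p) * v i) := by
  induction p using Polynomial.induction_on' with
  | add p q hp hq =>
    rw [map_add, add_smul, hp, hq]
    show (fun i => LaurentPolynomial.invert (toLaurent p) * v i) +
      (fun i => LaurentPolynomial.invert (toLaurent q) * v i) = _
    funext i
    show LaurentPolynomial.invert (toLaurent p) * v i +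
      LaurentPolynomial.invert (toLaurent q) * v i =
      LaurentPolynomial.invert (toLaurent (p + q)) * v i
    rw [map_add, map_add, add_mul]
  | monomial m a =>
    have h1 : (aeval ((1 : B) ⊗ₜ[k] t1 X) (monomial m a) : B ⊗[k] X.A1) =
        a ⊗ₜ[k] (t1 X ^ m) := by
      rw [aeval_monomial, Algebra.TensorProduct.tmul_pow, one_pow]
      show (a ⊗ₜ[k] (1 : X.A1)) * _ = _
      rw [Algebra.TensorProduct.tmul_mul_tmul, mul_one, one_mul]
    rw [h1, PreLD.tmul_smul1]
    have h2 : ((t1 X ^ m : X.A1) : X.A) = ((X.t⁻¹ : X.Aˣ) : X.A) ^ m := rfl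
    rw [h2, smul_vec, smulB_vec, Φ.Φ_tinvpow]
    show (a • (Matrix.scalar (Fin X.d) (LaurentPolynomial.T (-(m : ℤ)))).mulVec v) = _
    funext i
    rw [Pi.smul_apply, Matrix.scalar_apply, Matrix.mulVec_diagonal,
      ← Polynomial.C_mul_X_pow_eq_monomial, Polynomial.toLaurent_C_mul_X_pow, map_mul,
      LaurentPolynomial.invert_C, LaurentPolynomial.invert_T,
      LaurentPolynomial.smul_eq_C_mul, ← mul_assoc]
    rfl

theorem sum_single (w : Fin X.d → LaurentPolynomial B) (c : LaurentPolynomial B) :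
    ∑ i, vec Φ (fun j => w i * (Pi.single i c : Fin X.d → LaurentPolynomial B) j) =
      vec Φ (fun i => w i * c) := by
  classical
  show ∑ i, (fun j => w i * (Pi.single i c : Fin X.d → LaurentPolynomial B) j) = _
  funext j
  rw [Finset.sum_apply]
  simp only [Pi.single_apply, mul_ite, mul_zero]
  rw [Finset.sum_ite_eq Finset.univ j, if_pos (Finset.mem_univ j)]
  rfl

/-- **The line data of a matrix point is a line bundle.** -/
theorem isLine_toLD : Φ.toLD.IsLine := by
  classical
  refine isLine_of_existsUnique Φ.toLD (fun i => vec Φ (Pi.single i 1))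
    (fun i => vec Φ (Pi.single i (LaurentPolynomial.T (-1)))) ?_ ?_ ?_ ?_
  · intro i j n hn
    show ((Pi.single i 1 : Fin X.d → LaurentPolynomial B) j).coeff n = 0
    by_cases hij : j = i
    · subst hij
      rw [Pi.single_eq_same, ← LaurentPolynomial.T_zero, LaurentPolynomial.T_apply, if_neg]
      omega
    · rw [Pi.single_eq_of_ne hij]; rfl
  · intro i j n hn
    show ((Pi.single i (LaurentPolynomial.T (-1)) : Fin X.d → LaurentPolynomial B) j).coeff n = 0
    by_cases hij : j = i
    · subst hij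
      rw [Pi.single_eq_same, LaurentPolynomial.T_apply, if_neg]
      omega
    · rw [Pi.single_eq_of_ne hij]; rfl
  · intro m hm
    have hm' : ∀ i, ∀ n : ℤ, n < 0 → ((m : Fin X.d → LaurentPolynomial B) i).coeff n = 0 := hm
    choose f hf using fun i => exists_toLaurent _ (hm' i)
    have key : ∀ g : Fin X.d → B[X],
        ∑ i, (aeval ((1 : B) ⊗ₜ[k] t0 X) (g i) : B ⊗[k] X.A0) • vec Φ (Pi.single i 1) =
          vec Φ (fun i => toLaurent (g i)) := by
      intro g
      simp only [aeval_smul0]
      rw [sum_single Φ (fun i => toLaurent (g i)) 1]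
      simp only [mul_one]
    refine ⟨f, ?_, fun g hg => ?_⟩
    · show m = _
      rw [key]
      exact funext hf
    · have h1 : m = vec Φ (fun i => toLaurent (g i)) := by rw [← key]; exact hg
      funext i
      have h2 : toLaurent (g i) = toLaurent (f i) := by
        rw [← hf i]
        exact (congrFun h1 i).symm
      exact Polynomial.toLaurent_injective h2
  · intro m hm
    have hm' : ∀ i, ∀ n : ℤ, 0 ≤ n → ((m : Fin X.d → LaurentPolynomial B) i).coeff n = 0 := hm
    have hex : ∀ i, ∃ f : B[X], (m : Fin X.d → LaurentPolynomial B) i =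
        LaurentPolynomial.invert (toLaurent f) * LaurentPolynomial.T (-1) := by
      intro i
      obtain ⟨f, hf⟩ := exists_toLaurent
        (LaurentPolynomial.invert (LaurentPolynomial.T 1 * (m : Fin X.d → LaurentPolynomial B) i))
        (by
          intro n hn
          rw [LaurentPolynomial.invert_apply, lcoeff_T_mul]
          exact hm' i _ (by omega))
      refine ⟨f, ?_⟩
      rw [← hf, LaurentPolynomial.involutive_invert, mul_comm, ← mul_assoc,
        ← LaurentPolynomial.T_add]
      norm_num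
    choose f hf using hex
    have key : ∀ g : Fin X.d → B[X],
        ∑ i, (aeval ((1 : B) ⊗ₜ[k] t1 X) (g i) : B ⊗[k] X.A1) •
          vec Φ (Pi.single i (LaurentPolynomial.T (-1))) =
          vec Φ (fun i => LaurentPolynomial.invert (toLaurent (g i)) *
            LaurentPolynomial.T (-1)) := by
      intro g
      simp only [aeval_smul1]
      rw [sum_single Φ (fun i => LaurentPolynomial.invert (toLaurent (g i)))
        (LaurentPolynomial.T (-1))]
    refine ⟨f, ?_, fun g hg => ?_⟩
    · show m = _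
      rw [key]
      exact funext hf
    · have h1 : m = vec Φ (fun i => LaurentPolynomial.invert (toLaurent (g i)) *
            LaurentPolynomial.T (-1)) := by rw [← key]; exact hg
      funext i
      have h2 : LaurentPolynomial.invert (toLaurent (g i)) * LaurentPolynomial.T (-1) =
          LaurentPolynomial.invert (toLaurent (f i)) * LaurentPolynomial.T (-1) := by
        rw [← hf i]
        exact (congrFun h1 i).symm
      have h3 := (LaurentPolynomial.isUnit_T (R := B) (-1)).mul_right_cancel h2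
      exact Polynomial.toLaurent_injective (LaurentPolynomial.invert.injective h3)

end MPt

end Fermat.Agent.JGI
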