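import Fermat.Agent.JGI.Inv

/-!
# Generators modulo a maximal ideal, from the Dedekind fibre
-/

set_option autoImplicit false

noncomputable section

open Module TensorProduct

namespace Fermat.Agent.JGI

section Fib

variable {S R P : Type*} [CommRing S] [CommRing R] [Algebra S R] [AddCommGroup P] [Module R P]
  [Module S P] [IsScalarTower S R P] {d : ℕ}

/-- matrices of the elements of `R` acting on `P` -/
def Phi (bP : Basis (Fin d) S P) : R →ₐ[S] Matrix (Fin d) (Fin d) S :=
  (LinearMap.toMatrixAlgEquiv bP).toAlgHom.comp (Algebra.lsmul S S P : R →ₐ[S] Module.End S P)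

theorem repr_smul (bP : Basis (Fin d) S P) (r : R) (p : P) (i : Fin d) :
    bP.repr (r • p) i = ∑ j, Phi bP r i j * bP.repr p j := by
  have h := LinearMap.toMatrix_mulVec_repr bP bP (Algebra.lsmul S S P r) p
  have h1 := congrFun h i
  exact h1.symm

variable {Λ D : Type*} [CommRing Λ] [CommRing D] [Algebra Λ D]
  (bR : Basis (Fin d) S R) (bP : Basis (Fin d) S P) (bD : Basis (Fin d) Λ D) (g : S →+* Λ)
  (h : R →+* D) (hgh : ∀ s, h (algebraMap S R s) = algebraMap Λ D (g s))
  (hb : ∀ i, h (bR i) = bD i)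

/-- the action of `D` on `Λ^d`, linear version -/
def rholin : D →ₗ[Λ] Matrix (Fin d) (Fin d) Λ :=
  bD.constr Λ fun i => g.mapMatrix (Phi bP (bR i))

include hgh hb in
theorem rholin_h (r : R) : rholin bR bP bD g (h r) = g.mapMatrix (Phi bP r) := by
  have h1 : h r = ∑ i, g (bR.repr r i) • bD i := by
    conv_lhs => rw [← bR.sum_repr r]
    rw [map_sum]
    refine Finset.sum_congr rfl fun i _ => ?_
    rw [Algebra.smul_def, map_mul, hgh, hb, Algebra.smul_def]
  rw [h1, map_sum]
  conv_rhs => rw [← bR.sum_repr r]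
  rw [map_sum, map_sum]
  refine Finset.sum_congr rfl fun i _ => ?_
  rw [map_smul, rholin, Basis.constr_basis, map_smul]
  ext a c
  simp

/-- the action of `D` on `Λ^d` -/
def rho : D →ₐ[Λ] Matrix (Fin d) (Fin d) Λ :=
  AlgHom.ofLinearMap (rholin bR bP bD g)
    (by rw [← map_one h, rholin_h bR bP bD g h hgh hb, map_one, map_one])
    (by
      have h1 : ∀ i j, rholin bR bP bD g (bD i * bD j) =
          rholin bR bP bD g (bD i) * rholin bR bP bD g (bD j) := by
        intro i j
        rw [← hb, ← hb, ← map_mul, rholin_h bR bP bD g h hgh hb, rholin_h bR bP bD g h hgh hb,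
          rholin_h bR bP bD g h hgh hb, map_mul, map_mul]
      intro x y
      rw [← bD.sum_repr x, ← bD.sum_repr y, Finset.sum_mul_sum]
      simp only [map_sum, smul_mul_smul_comm, map_smul, h1]
      rw [Finset.sum_mul_sum]
      simp only [smul_mul_smul_comm])

theorem rho_h (r : R) : rho bR bP bD g h hgh hb (h r) = g.mapMatrix (Phi bP r) :=
  rholin_h bR bP bD g h hgh hb r

include bR bD hgh hb in
theorem exists_gen_mod [IsDomain D] [IsDedekindRing D] [IsDomain Λ] {L : Type*} [Field L]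
    (ε : Λ →+* L) (hsurj : Function.Surjective (ε.comp g)) (θ : Λ) (hθ0 : θ ≠ 0) (hθ : ε θ = 0)
    (hd : 0 < d) :
    ∃ p : P, ∀ x, ∃ r : R, ∀ i, bP.repr (x - r • p) i ∈ RingHom.ker (ε.comp g) := by
  classical
  let ρ := rho bR bP bD g h hgh hb
  let ρ' : D →ₐ[Λ] Module.End Λ (Fin d → Λ) := (Matrix.toLinAlgEquiv' (R := Λ)).toAlgHom.comp ρ
  have hρ' : ∀ r v i, ρ' r v i = ∑ j, ρ r i j * v j := fun r v i => rfl
  have hθD : algebraMap Λ D θ ≠ 0 := by
    intro h0
    exact hθ0 ((algebraMap_injective_of_basis bD hd) (by rw [h0, map_zero]))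
  obtain ⟨v, hv⟩ := cyclic_mod bD (Pi.basisFun Λ (Fin d)) ρ' (algebraMap Λ D θ) hθD
  choose s hs using fun i => hsurj (ε (v i))
  let p : P := ∑ i, s i • bP i
  have hp : ∀ i, bP.repr p i = s i := by
    intro i
    have h1 : p = bP.equivFun.symm s := (bP.equivFun_symm_apply s).symm
    have h2 : bP.equivFun p = s := by
      rw [h1]
      exact bP.equivFun.apply_symm_apply s
    exact congrFun h2 i
  refine ⟨p, fun x => ?_⟩
  obtain ⟨r, y, hr⟩ := hv (fun i => g (bP.repr x i))
  choose c hc using fun l => hsurj (ε (bD.repr r l))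
  refine ⟨∑ l, c l • bR l, fun i => ?_⟩
  rw [RingHom.mem_ker, map_sub, Finsupp.sub_apply, map_sub, sub_eq_zero, repr_smul, map_sum]
  have h1 := congrFun hr i
  have h2 := congrArg ε h1
  rw [Pi.add_apply, map_add, hρ', map_sum] at h2
  have h3 : ε (ρ' (algebraMap Λ D θ) y i) = 0 := by
    rw [AlgHom.commutes]
    show ε (θ * y i) = 0
    rw [map_mul, hθ, zero_mul]
  rw [h3, add_zero] at h2
  refine h2.trans (Finset.sum_congr rfl fun j _ => ?_)
  rw [map_mul, map_mul, hp, hs j]
  congr 1
  have h4 : ρ r i j = ∑ l, bD.repr r l * g (Phi bP (bR l) i j) := by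
    conv_lhs => rw [← bD.sum_repr r]
    rw [map_sum, Matrix.sum_apply]
    refine Finset.sum_congr rfl fun l _ => ?_
    rw [map_smul, Matrix.smul_apply, smul_eq_mul, ← hb, rho_h]
    rfl
  rw [h4, map_sum, map_sum, Matrix.sum_apply, map_sum]
  refine Finset.sum_congr rfl fun l _ => ?_
  rw [map_smul, Matrix.smul_apply, smul_eq_mul, map_mul, map_mul, ← hc l]
  rfl

end Fib

end Fermat.Agent.JGI
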