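import Mathlib

/-!
# Criteria for invertibility of modules (S25, block G)
-/

set_option autoImplicit false

noncomputable section

open Module TensorProduct

namespace Fermat.Agent.JGI

section Local

variable {S R P : Type*} [CommRing S] [CommRing R] [Algebra S R] [AddCommGroup P] [Module R P]

/-- local generator: `f x • p = σ x`, `f p = σ` -/
def LG (P : Type*) [AddCommGroup P] [Module R P] (σ : S) : Prop :=
  ∃ (p : P) (f : P →ₗ[R] R), (∀ x, f x • p = algebraMap S R σ • x) ∧ f p = algebraMap S R σ

theorem LG.smul_eq_zero {σ : S} (h : LG (R := R) P σ) {z : Dual R P ⊗[R] P}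
    (hz : contractLeft R P z = 0) : (algebraMap S R σ ^ 2) • z = 0 := by
  obtain ⟨p, f, h1, h2⟩ := h
  set s := algebraMap S R σ with hs
  suffices key : ∀ z : Dual R P ⊗[R] P, (s ^ 2) • z = (contractLeft R P z * s) • (f ⊗ₜ[R] p) by
    rw [key, hz, zero_mul, zero_smul]
  intro z
  induction z using TensorProduct.induction_on with
  | zero => simp
  | add a b ha hb => rw [smul_add, ha, hb, map_add, add_mul, add_smul]
  | tmul g y =>
    rw [contractLeft_apply]
    have h3 : ∀ x, s • (f y • x) = s • (f x • y) := by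
      intro x
      rw [smul_comm s (f y) x, ← h1 x, smul_smul, mul_comm, ← smul_smul, h1 y,
        smul_comm]
    have h4 : s • (f y • g) = s • (g y • f) := by
      ext x
      simp only [LinearMap.smul_apply, smul_eq_mul]
      have h5 := congrArg g (h3 x)
      simp only [map_smul, smul_eq_mul] at h5
      rw [h5]; ring
    calc (s ^ 2) • (g ⊗ₜ[R] y) = s • (g ⊗ₜ[R] (s • y)) := by
          rw [pow_two, mul_smul, TensorProduct.tmul_smul]
      _ = s • (g ⊗ₜ[R] (f y • p)) := by rw [h1 y]
      _ = (s • (f y • g)) ⊗ₜ[R] p := by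
          rw [TensorProduct.tmul_smul, ← TensorProduct.smul_tmul', ← TensorProduct.smul_tmul']
      _ = (g y * s) • (f ⊗ₜ[R] p) := by
          rw [h4, ← TensorProduct.smul_tmul', ← TensorProduct.smul_tmul', smul_smul, mul_comm]

variable (S) in
/-- **Local criterion for invertibility.** -/
theorem invertible_of_local (h : ∀ 𝔪 : Ideal S, 𝔪.IsMaximal → ∃ σ ∉ 𝔪, LG (R := R) P σ) :
    Module.Invertible R P := by
  constructor
  constructor
  · rw [injective_iff_map_eq_zero]
    intro z hz
    let I : Ideal S :=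
      { carrier := {s | algebraMap S R s • z = 0}
        zero_mem' := by
          show algebraMap S R 0 • z = 0
          rw [map_zero, zero_smul]
        add_mem' := by
          intro a b (ha : algebraMap S R a • z = 0) (hb : algebraMap S R b • z = 0)
          show algebraMap S R (a + b) • z = 0
          rw [map_add, add_smul, ha, hb, add_zero]
        smul_mem' := by
          intro c a (ha : algebraMap S R a • z = 0)
          show algebraMap S R (c * a) • z = 0
          rw [map_mul, mul_smul, ha, smul_zero] }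
    have hI : I = ⊤ := by
      by_contra hI
      obtain ⟨𝔪, hm, hle⟩ := Ideal.exists_le_maximal I hI
      obtain ⟨σ, hσ, hLG⟩ := h 𝔪 hm
      apply hσ
      have h1 : σ ^ 2 ∈ I := by
        show algebraMap S R (σ ^ 2) • z = 0
        rw [map_pow]
        exact hLG.smul_eq_zero hz
      exact hm.isPrime.mem_of_pow_mem 2 (hle h1)
    have h1 : (1 : S) ∈ I := by rw [hI]; trivial
    have h2 : algebraMap S R 1 • z = 0 := h1
    rwa [map_one, one_smul] at h2
  · let I : Ideal S :=
      { carrier := {s | ∃ z, contractLeft R P z = algebraMap S R s}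
        zero_mem' := ⟨0, by simp⟩
        add_mem' := by
          rintro a b ⟨z, hz⟩ ⟨w, hw⟩
          exact ⟨z + w, by rw [map_add, map_add, hz, hw]⟩
        smul_mem' := by
          rintro c a ⟨z, hz⟩
          exact ⟨algebraMap S R c • z, by rw [map_smul, hz, smul_eq_mul, smul_eq_mul, map_mul]⟩ }
    have hI : I = ⊤ := by
      by_contra hI
      obtain ⟨𝔪, hm, hle⟩ := Ideal.exists_le_maximal I hI
      obtain ⟨σ, hσ, p, f, -, h2⟩ := h 𝔪 hm
      apply hσ
      apply hle
      exact ⟨f ⊗ₜ p, by rw [contractLeft_apply, h2]⟩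
    obtain ⟨z, hz⟩ : (1 : S) ∈ I := by rw [hI]; trivial
    intro r
    exact ⟨r • z, by rw [map_smul, hz, map_one, smul_eq_mul, mul_one]⟩

end Local

section Det

variable {S R P : Type*} [CommRing S] [CommRing R] [Algebra S R] [AddCommGroup P] [Module R P]
  [Module S P] [IsScalarTower S R P] {d : ℕ}

/-- generator modulo a maximal ideal ⟹ local generator, for free modules of the same rank -/
theorem exists_LG (bR : Basis (Fin d) S R) (bP : Basis (Fin d) S P) (𝔪 : Ideal S)
    [h𝔪 : 𝔪.IsMaximal] (p : P) (hp : ∀ x, ∃ r : R, ∀ i, bP.repr (x - r • p) i ∈ 𝔪) :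
    ∃ σ ∉ 𝔪, LG (R := R) P σ := by
  classical
  let φ : R →ₗ[S] P := (LinearMap.toSpanSingleton R P p).restrictScalars S
  have hφ : ∀ r, φ r = r • p := fun r => rfl
  let N : Matrix (Fin d) (Fin d) S := LinearMap.toMatrix bR bP φ
  let ψ : P →ₗ[S] R := Matrix.toLin bP bR N.adjugate
  have h1 : ∀ r, ψ (φ r) = N.det • r := by
    intro r
    have h : ψ ∘ₗ φ = N.det • LinearMap.id := by
      apply (LinearMap.toMatrix bR bR).injective
      rw [LinearMap.toMatrix_comp bR bP bR, LinearMap.toMatrix_toLin, Matrix.adjugate_mul,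
        map_smul, LinearMap.toMatrix_id]
    exact LinearMap.congr_fun h r
  have h2 : ∀ x, φ (ψ x) = N.det • x := by
    intro x
    have h : φ ∘ₗ ψ = N.det • LinearMap.id := by
      apply (LinearMap.toMatrix bP bP).injective
      rw [LinearMap.toMatrix_comp bP bR bP, LinearMap.toMatrix_toLin, Matrix.mul_adjugate,
        map_smul, LinearMap.toMatrix_id]
    exact LinearMap.congr_fun h x
  have hdet : N.det ∉ 𝔪 := by
    choose r hr using fun j => hp (bP j)
    let C : Matrix (Fin d) (Fin d) S := Matrix.of fun i j => bR.repr (r j) i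
    have h3 : (Ideal.Quotient.mk 𝔪).mapMatrix (N * C) = 1 := by
      ext i j
      rw [RingHom.mapMatrix_apply, Matrix.map_apply, Matrix.mul_apply]
      have h4 : ∑ l, N i l * C l j = bP.repr (r j • p) i := by
        rw [← hφ, ← LinearMap.toMatrix_mulVec_repr bR bP φ (r j)]
        rfl
      rw [h4, Matrix.one_apply]
      have h5 := hr j i
      rw [map_sub, Finsupp.sub_apply, ← Ideal.Quotient.eq, Basis.repr_self,
        Finsupp.single_apply] at h5
      rw [← h5]
      by_cases hij : i = j
      · subst hij; simp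
      · rw [if_neg hij, if_neg (fun h => hij h.symm), map_zero]
    rw [map_mul] at h3
    have h4 := congrArg Matrix.det h3
    rw [Matrix.det_mul, Matrix.det_one] at h4
    intro hN
    have h5 : ((Ideal.Quotient.mk 𝔪).mapMatrix N).det = 0 := by
      rw [← RingHom.map_det, Ideal.Quotient.eq_zero_iff_mem]
      exact hN
    rw [h5, zero_mul] at h4
    exact h𝔪.ne_top ((Ideal.eq_top_iff_one _).mpr (Ideal.Quotient.eq_zero_iff_mem.mp
      (by rw [map_one]; exact h4.symm)))
  refine ⟨N.det ^ 2, fun h => hdet (h𝔪.isPrime.mem_of_pow_mem 2 h), p,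
    { toFun := fun x => N.det • ψ x
      map_add' := fun x y => by rw [map_add, smul_add]
      map_smul' := fun r x => ?_ }, fun x => ?_, ?_⟩
  · have h3 : φ (ψ (r • x)) = φ (r • ψ x) := by
      rw [h2, hφ, smul_eq_mul, mul_smul, ← hφ, h2, smul_comm]
    have h4 := congrArg ψ h3
    rw [h1, h1] at h4
    rw [RingHom.id_apply, h4, smul_eq_mul, smul_eq_mul, Algebra.mul_smul_comm]
  · show (N.det • ψ x) • p = _
    rw [smul_assoc, ← hφ, h2, smul_smul, ← pow_two, algebraMap_smul]
  · show N.det • ψ p = _
    have h3 : p = φ 1 := by rw [hφ, one_smul]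
    conv_lhs => rw [h3]
    rw [h1, smul_smul, Algebra.smul_def, mul_one, pow_two]

end Det

section Dedekind

theorem algebraMap_injective_of_basis {Λ D : Type*} [CommRing Λ] [CommRing D] [Algebra Λ D]
    {d : ℕ} (b : Basis (Fin d) Λ D) (hd : 0 < d) : Function.Injective (algebraMap Λ D) := by
  rw [injective_iff_map_eq_zero]
  intro c hc
  have h1 : c • b ⟨0, hd⟩ = 0 := by
    rw [Algebra.smul_def, hc, zero_mul]
  have h2 := congrArg (fun x => b.repr x ⟨0, hd⟩) h1
  simpa using h2

variable {D Λ P : Type*} [CommRing D] [IsDomain D] [IsDedekindRing D] [CommRing Λ] [IsDomain Λ]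
  [Algebra Λ D] [AddCommGroup P] [Module Λ P] {d : ℕ}

/-- a torsion free module of rank one over a Dedekind domain is cyclic modulo `θ ≠ 0` -/
theorem cyclic_mod (bD : Basis (Fin d) Λ D) (bP : Basis (Fin d) Λ P)
    (ρ : D →ₐ[Λ] Module.End Λ P) (θ : D) (hθ : θ ≠ 0) :
    ∃ p : P, ∀ x, ∃ (r : D) (y : P), x = ρ r p + ρ θ y := by
  classical
  have hD : IsDedekindDomain D := { }
  have hfin : Module.Finite Λ D := Module.Finite.of_basis bD
  have hint : Algebra.IsIntegral Λ D := Algebra.IsIntegral.of_finite Λ D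
  have hfree : Module.Free Λ P := Module.Free.of_basis bP
  have hd : 0 < d := by
    rcases Nat.eq_zero_or_pos d with rfl | h
    · exfalso
      have : Subsingleton D := bD.repr.toEquiv.subsingleton
      exact not_subsingleton D this
    · exact h
  -- torsion-freeness
  have htf : ∀ (r : D) (x : P), r ≠ 0 → ρ r x = 0 → x = 0 := by
    intro r x hr h
    have h1 : (Ideal.span {r}).comap (algebraMap Λ D) ≠ ⊥ :=
      Ideal.comap_ne_bot_of_integral_mem hr (Ideal.mem_span_singleton_self r)
        (Algebra.IsIntegral.isIntegral r)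
    obtain ⟨f, hf, hf0⟩ := Submodule.exists_mem_ne_zero_of_ne_bot h1
    obtain ⟨r', hr'⟩ := Ideal.mem_span_singleton'.mp (Ideal.mem_comap.mp hf)
    have h2 : f • x = 0 := by
      have h3 : ρ (algebraMap Λ D f) x = f • x := by
        rw [AlgHom.commutes]; rfl
      rw [← h3, ← hr', map_mul, Module.End.mul_apply, h, map_zero]
    have h4 := congrArg bP.repr h2
    rw [map_smul, map_zero] at h4
    have h5 : bP.repr x = 0 := by
      ext i
      have h6 := DFunLike.congr_fun h4 i
      rw [Finsupp.smul_apply, smul_eq_mul, Finsupp.zero_apply] at h6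
      exact (mul_eq_zero.mp h6).resolve_left hf0
    exact (map_eq_zero_iff _ bP.repr.injective).mp h5
  let v : P := bP ⟨0, hd⟩
  have hv : v ≠ 0 := bP.ne_zero _
  let φ : D →ₗ[Λ] P :=
    { toFun := fun r => ρ r v
      map_add' := fun a b => by rw [map_add]; rfl
      map_smul' := fun c a => by rw [map_smul]; rfl }
  have hφ : ∀ r, φ r = ρ r v := fun r => rfl
  have hφinj : Function.Injective φ := by
    rw [injective_iff_map_eq_zero]
    intro r hr
    by_contra hr0
    exact hv (htf r v hr0 hr)
  let N : Matrix (Fin d) (Fin d) Λ := LinearMap.toMatrix bD bP φ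
  let ψ : P →ₗ[Λ] D := Matrix.toLin bP bD N.adjugate
  have h1 : ∀ r, ψ (φ r) = N.det • r := by
    intro r
    have h : ψ ∘ₗ φ = N.det • LinearMap.id := by
      apply (LinearMap.toMatrix bD bD).injective
      rw [LinearMap.toMatrix_comp bD bP bD, LinearMap.toMatrix_toLin, Matrix.adjugate_mul,
        map_smul, LinearMap.toMatrix_id]
    exact LinearMap.congr_fun h r
  have h2 : ∀ x, φ (ψ x) = N.det • x := by
    intro x
    have h : φ ∘ₗ ψ = N.det • LinearMap.id := by
      apply (LinearMap.toMatrix bP bP).injective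
      rw [LinearMap.toMatrix_comp bP bD bP, LinearMap.toMatrix_toLin, Matrix.mul_adjugate,
        map_smul, LinearMap.toMatrix_id]
    exact LinearMap.congr_fun h x
  have hdet : N.det ≠ 0 := by
    intro h0
    obtain ⟨w, hw0, hw⟩ := Matrix.exists_mulVec_eq_zero_iff.mpr h0
    apply hw0
    have h3 : φ (bD.equivFun.symm w) = 0 := by
      apply bP.repr.injective
      rw [map_zero]
      ext i
      have h4 := LinearMap.toMatrix_mulVec_repr bD bP φ (bD.equivFun.symm w)
      have h5 : ⇑(bD.repr (bD.equivFun.symm w)) = w := bD.equivFun.apply_symm_apply w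
      rw [h5] at h4
      rw [← h4]
      exact congrFun hw i
    have h4 : bD.equivFun.symm w = 0 := hφinj (by rw [h3, map_zero])
    rwa [LinearEquiv.symm_apply_eq, map_zero] at h4
  have hsm : ∀ x : P, N.det • x = 0 → x = 0 := by
    intro x hx
    apply htf (algebraMap Λ D N.det) x
    · intro h
      exact hdet ((algebraMap_injective_of_basis bD hd) (by rw [h, map_zero]))
    · rw [AlgHom.commutes]; exact hx
  have hψinj : Function.Injective ψ := by
    rw [injective_iff_map_eq_zero]
    intro x hx
    apply hsm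
    rw [← h2, hx, map_zero]
  have hρφ : ∀ r s, ρ r (φ s) = φ (r * s) := by
    intro r s
    rw [hφ, hφ, map_mul]; rfl
  have hψD : ∀ r x, ψ (ρ r x) = r * ψ x := by
    intro r x
    apply hφinj
    rw [h2, ← hρφ, h2, map_smul]
  let J : Ideal D :=
    { carrier := Set.range ψ
      zero_mem' := ⟨0, map_zero _⟩
      add_mem' := by
        rintro _ _ ⟨x, rfl⟩ ⟨y, rfl⟩
        exact ⟨x + y, map_add _ _ _⟩
      smul_mem' := by
        rintro c _ ⟨x, rfl⟩
        exact ⟨ρ c x, hψD c x⟩ }
  have hJ : J ≠ ⊥ := by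
    intro h
    have h3 : ψ v ∈ J := ⟨v, rfl⟩
    rw [h, Ideal.mem_bot] at h3
    exact hv (hψinj (by rw [h3, map_zero]))
  have hI : Ideal.span {θ} * J ≠ 0 := by
    rw [Ideal.zero_eq_bot, Ne, Ideal.mul_eq_bot, Ideal.span_singleton_eq_bot]
    tauto
  obtain ⟨a, ha⟩ := IsDedekindDomain.exists_sup_span_eq (I := Ideal.span {θ} * J) (J := J)
    Ideal.mul_le_right hI
  have haJ : a ∈ J := by
    rw [← ha]
    exact Ideal.mem_sup_right (Ideal.mem_span_singleton_self a)
  obtain ⟨p, hp⟩ := haJ
  refine ⟨p, fun x => ?_⟩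
  have hx : ψ x ∈ J := ⟨x, rfl⟩
  rw [← ha, Submodule.mem_sup] at hx
  obtain ⟨y, hy, z, hz, hyz⟩ := hx
  obtain ⟨y', hy', rfl⟩ := Ideal.mem_span_singleton_mul.mp hy
  obtain ⟨w, rfl⟩ := hy'
  obtain ⟨r, rfl⟩ := Ideal.mem_span_singleton'.mp hz
  refine ⟨r, w, ?_⟩
  apply hψinj
  rw [map_add, hψD, hψD, hp, ← hyz, add_comm]

end Dedekind

end Fermat.Agent.JGI
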