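import Fermat.Agent.JGI.Fib

/-!
# Invertibility of modules over `B ⊗ A0` which are free of the right rank over `B[t]`
-/

set_option autoImplicit false
set_option linter.style.haveILetI false

noncomputable section

universe u

open Module TensorProduct Polynomial

namespace Fermat.Agent.JGI

/-- a basis from unique representability -/
def basisOfExistsUnique {S P : Type*} [CommRing S] [AddCommGroup P] [Module S P] {d : ℕ}
    (e : Fin d → P) (h : ∀ x, ∃! f : Fin d → S, x = ∑ i, f i • e i) : Basis (Fin d) S P :=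
  Basis.mk (v := e)
    (by
      rw [Fintype.linearIndependent_iff]
      intro g hg
      obtain ⟨f, -, hf⟩ := h 0
      have h1 := hf g hg.symm
      have h2 := hf 0 (by simp)
      intro i
      rw [h1, ← h2]; rfl)
    (by
      intro x _
      obtain ⟨f, hf, -⟩ := h x
      rw [show x = ∑ i, f i • e i from hf]
      exact Submodule.sum_mem _ fun i _ => Submodule.smul_mem _ _ (Submodule.subset_span ⟨i, rfl⟩))

theorem basisOfExistsUnique_apply {S P : Type*} [CommRing S] [AddCommGroup P] [Module S P] {d : ℕ}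
    (e : Fin d → P) (h : ∀ x, ∃! f : Fin d → S, x = ∑ i, f i • e i) (i : Fin d) :
    basisOfExistsUnique e h i = e i := by
  rw [basisOfExistsUnique, Basis.mk_apply]

section Mono

variable {B R P : Type*} [CommRing B] [CommRing R] [Algebra B R] [AddCommGroup P] [Module B P]
  [Module R P] [IsScalarTower B R P] {d : ℕ} {τ : R} {e : Fin d → P}
  (bas : Basis (ℕ × Fin d) B P) (hbas : ∀ n i, bas (n, i) = τ ^ n • e i)

include hbas in
theorem repr_aeval (f : Fin d → B[X]) (n : ℕ) (i : Fin d) :
    bas.repr (∑ j, aeval τ (f j) • e j) (n, i) = (f i).coeff n := by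
  classical
  have h1 : ∀ (p : B[X]) (j : Fin d), bas.repr (aeval τ p • e j) (n, i) =
      if j = i then p.coeff n else 0 := by
    intro p j
    induction p using Polynomial.induction_on' with
    | add p q hp hq =>
      rw [map_add, add_smul, map_add, Finsupp.add_apply, hp, hq, coeff_add]
      split_ifs <;> simp
    | monomial m a =>
      rw [aeval_monomial, mul_smul, algebraMap_smul, map_smul, ← hbas, Basis.repr_self,
        Finsupp.smul_apply, Finsupp.single_apply, coeff_monomial]
      by_cases hj : j = i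
      · subst hj
        by_cases hm : m = n
        · subst hm; simp
        · simp [hm]
      · rw [if_neg hj, if_neg (by intro h; exact hj (congrArg Prod.snd h)), smul_zero]
  rw [map_sum, Finsupp.finsetSum_apply]
  simp only [h1]
  rw [Finset.sum_ite_eq' Finset.univ i (fun j => (f j).coeff n), if_pos (Finset.mem_univ i)]

include bas hbas in
theorem existsUnique_of_basis (x : P) : ∃! f : Fin d → B[X], x = ∑ i, aeval τ (f i) • e i := by
  classical
  refine ⟨fun i => ∑ n ∈ (bas.repr x).support.image Prod.fst, monomial n (bas.repr x (n, i)),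
    ?_, ?_⟩
  · apply bas.repr.injective
    ext ⟨n, i⟩
    rw [repr_aeval bas hbas, finsetSum_coeff]
    simp only [coeff_monomial]
    by_cases hn : n ∈ (bas.repr x).support.image Prod.fst
    · rw [Finset.sum_ite_eq' _ n, if_pos hn]
    · rw [Finset.sum_ite_eq' _ n, if_neg hn]
      by_contra h0
      exact hn (Finset.mem_image.mpr ⟨(n, i), Finsupp.mem_support_iff.mpr h0, rfl⟩)
  · intro g hg
    funext i
    ext n
    have h1 : bas.repr x (n, i) = (g i).coeff n := by
      rw [show x = ∑ i, aeval τ (g i) • e i from hg]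
      exact repr_aeval bas hbas g n i
    rw [finsetSum_coeff]
    simp only [coeff_monomial]
    rw [← h1]
    by_cases hn : n ∈ (bas.repr x).support.image Prod.fst
    · rw [Finset.sum_ite_eq' _ n, if_pos hn]
    · rw [Finset.sum_ite_eq' _ n, if_neg hn]
      by_contra h0
      exact hn (Finset.mem_image.mpr ⟨(n, i), Finsupp.mem_support_iff.mpr h0, rfl⟩)

end Mono

section Base

variable {k A0 : Type*} [Field k] [CommRing A0] [Algebra k A0] {t : A0} {d : ℕ} {b : Fin d → A0}
  (hb : ∀ a, ∃! f : Fin d → k[X], a = ∑ i, aeval t (f i) * b i)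

include hb in
/-- the basis of `B ⊗ A0` over `B[t]` -/
theorem existsUnique_base (B : Type*) [CommRing B] [Algebra k B] (r : B ⊗[k] A0) :
    ∃! f : Fin d → B[X], r = ∑ i, aeval ((1 : B) ⊗ₜ[k] t) (f i) • ((1 : B) ⊗ₜ[k] b i) := by
  letI : Algebra k[X] A0 := (aeval t).toAlgebra
  have halg : ∀ f : k[X], algebraMap k[X] A0 f = aeval t f := fun _ => rfl
  haveI : IsScalarTower k k[X] A0 := IsScalarTower.of_algebraMap_eq fun c => by
    rw [halg, Polynomial.algebraMap_apply, aeval_C]; rfl
  let bA : Basis (Fin d) k[X] A0 := basisOfExistsUnique b (by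
    intro a
    obtain ⟨f, hf, hu⟩ := hb a
    refine ⟨f, ?_, fun g hg => hu g ?_⟩
    · simp only [Algebra.smul_def, halg]; exact hf
    · simp only [Algebra.smul_def, halg] at hg; exact hg)
  have hbA : ∀ i, bA i = b i := fun i => basisOfExistsUnique_apply _ _ i
  let bk : Basis (ℕ × Fin d) k A0 := (Polynomial.basisMonomials k).smulTower bA
  let bB : Basis (ℕ × Fin d) B (B ⊗[k] A0) := Algebra.TensorProduct.basis B bk
  refine existsUnique_of_basis bB (τ := (1 : B) ⊗ₜ[k] t) (e := fun i => (1 : B) ⊗ₜ[k] b i) ?_ r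
  intro n i
  rw [Algebra.TensorProduct.basis_apply, Basis.smulTower_apply, hbA, coe_basisMonomials,
    Algebra.smul_def, halg, aeval_monomial, map_one, one_mul, smul_eq_mul,
    Algebra.TensorProduct.tmul_pow, Algebra.TensorProduct.tmul_mul_tmul, one_pow, one_mul]

end Base

/-- **G-INV.** -/
theorem invertible_of_existsUnique {k A0 B P : Type u} [Field k] [CommRing A0] [Algebra k A0]
    [CommRing B] [Algebra k B] [AddCommGroup P] [Module (B ⊗[k] A0) P] {t : A0} {d : ℕ}
    (hd : 0 < d) {b : Fin d → A0}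
    (hb : ∀ a, ∃! f : Fin d → k[X], a = ∑ i, aeval t (f i) * b i)
    (hded : ∀ (κ : Type u) [Field κ] [Algebra k κ],
      IsDomain (κ ⊗[k] A0) ∧ IsDedekindRing (κ ⊗[k] A0))
    (e : Fin d → P)
    (he : ∀ x, ∃! f : Fin d → B[X],
      x = ∑ i, (aeval ((1 : B) ⊗ₜ[k] t) (f i) : B ⊗[k] A0) • e i) :
    Module.Invertible (B ⊗[k] A0) P := by
  let σ : B[X] →ₐ[B] B ⊗[k] A0 := aeval ((1 : B) ⊗ₜ[k] t)
  letI : Algebra B[X] (B ⊗[k] A0) := σ.toRingHom.toAlgebra
  letI : Module B[X] P := Module.compHom P σ.toRingHom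
  haveI : IsScalarTower B[X] (B ⊗[k] A0) P := ⟨fun s r p => by
    show (σ s * r) • p = σ s • r • p
    rw [mul_smul]⟩
  let bR : Basis (Fin d) B[X] (B ⊗[k] A0) := basisOfExistsUnique _ (existsUnique_base hb B)
  have hbR : ∀ i, bR i = (1 : B) ⊗ₜ[k] b i := fun i => basisOfExistsUnique_apply _ _ i
  let bP : Basis (Fin d) B[X] P := basisOfExistsUnique e he
  refine invertible_of_local B[X] fun 𝔪 h𝔪 => ?_
  suffices h : ∃ p : P, ∀ x, ∃ r : B ⊗[k] A0, ∀ i, bP.repr (x - r • p) i ∈ 𝔪 by
    obtain ⟨p, hp⟩ := h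
    exact exists_LG bR bP 𝔪 p hp
  letI : Field (B[X] ⧸ 𝔪) := Ideal.Quotient.field 𝔪
  let L := B[X] ⧸ 𝔪
  obtain ⟨hdom, hdedR⟩ := hded L
  let β : B →ₐ[k] L := (Ideal.Quotient.mkₐ k 𝔪).comp (Polynomial.CAlgHom (R := k) (A := B))
  let g : B[X] →+* L[X] := Polynomial.mapRingHom β.toRingHom
  let h : B ⊗[k] A0 →ₐ[k] L ⊗[k] A0 := Algebra.TensorProduct.map β (AlgHom.id k A0)
  let σ' : L[X] →ₐ[L] L ⊗[k] A0 := aeval ((1 : L) ⊗ₜ[k] t)
  letI : Algebra L[X] (L ⊗[k] A0) := σ'.toRingHom.toAlgebra
  let bD : Basis (Fin d) L[X] (L ⊗[k] A0) := basisOfExistsUnique _ (existsUnique_base hb L)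
  have hbD : ∀ i, bD i = (1 : L) ⊗ₜ[k] b i := fun i => basisOfExistsUnique_apply _ _ i
  have hgh : ∀ s, h (algebraMap B[X] (B ⊗[k] A0) s) = algebraMap L[X] (L ⊗[k] A0) (g s) := by
    intro s
    show h (σ s) = σ' (g s)
    induction s using Polynomial.induction_on' with
    | add p q hp hq => rw [map_add, map_add, hp, hq, map_add, map_add]
    | monomial m a =>
      have h1 : g (monomial m a) = monomial m (β a) := Polynomial.map_monomial _
      rw [h1]
      simp only [σ, σ', aeval_monomial]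
      have h2 : h ((1 : B) ⊗ₜ[k] t) = (β 1) ⊗ₜ[k] t := Algebra.TensorProduct.map_tmul _ _ _ _
      have h3 : h (algebraMap B (B ⊗[k] A0) a) = algebraMap L (L ⊗[k] A0) (β a) :=
        Algebra.TensorProduct.map_tmul _ _ _ _
      rw [map_mul, map_pow, h2, h3, map_one]
  have hbb : ∀ i, h (bR i) = bD i := by
    intro i
    rw [hbR, hbD]
    have h2 : h ((1 : B) ⊗ₜ[k] b i) = (β 1) ⊗ₜ[k] b i := Algebra.TensorProduct.map_tmul _ _ _ _
    rw [h2, map_one]
  let x : L := Ideal.Quotient.mk 𝔪 X
  let ε : L[X] →+* L := Polynomial.evalRingHom x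
  have hεg : ε.comp g = Ideal.Quotient.mk 𝔪 := by
    apply Polynomial.ringHom_ext
    · intro a
      show Polynomial.eval x (Polynomial.map _ (C a)) = _
      rw [Polynomial.map_C, Polynomial.eval_C]
      rfl
    · show Polynomial.eval x (Polynomial.map _ X) = _
      rw [Polynomial.map_X, Polynomial.eval_X]
  have hres := exists_gen_mod bR bP bD g h.toRingHom hgh hbb ε
    (by rw [hεg]; exact Ideal.Quotient.mk_surjective) (X - C x) (Polynomial.X_sub_C_ne_zero x)
    (by simp [ε]) hd
  rw [hεg, Ideal.mk_ker] at hres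
  exact hres

end Fermat.Agent.JGI
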